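/-
Programme K (S52), brick K4b (helper96): the local input of `Model.exists_semistable_model` from
Klein's icosahedral forms.

* the forms `kf, kH, kT` (degrees 12, 20, 30) as polynomial functions on any commutative ring, written
  in `X = z₁⁵`, `Y = z₂⁵` (`hXY`, `tXY`); syzygy `kT² + kH³ = 1728 kf⁵`; Euler relation for `kf`;
* Bezout certificates (found by helper23, report 240): `A₁ H + B₁ T = c z₁⁴⁵`, `A₂ H + B₂ T = c z₂⁴⁵`,
  `c = 2⁴ 3² 5¹⁰`;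
* for a valuation subring `A` of a field in which `c` is a unit:
  `mem_of_forms_mem`      : `kH v, kT v ∈ A ⟹ v ∈ A²`;
  `nonunits_of_forms`     : `v ∈ A²`, `kH v, kT v ∈ 𝔪_A ⟹ v ∈ 𝔪_A²`;
  `not_both_nonunits_add` : `v₀ + t v₁` is primitive when `det (v₀, v₁)` is a unit.
-/
import Mathlib
import Fermat.Agent.S05.Inertia

set_option autoImplicit false

namespace Fermat.Agent.S52K4.Klein

section Forms

variable {R : Type*} [CommRing R]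

/-- Klein's form `H` in the variables `X = z₁⁵`, `Y = z₂⁵`. -/
def hXY (X Y : R) : R := -X ^ 4 - Y ^ 4 + 228 * (X ^ 3 * Y - X * Y ^ 3) - 494 * X ^ 2 * Y ^ 2

/-- Klein's form `T` in the variables `X = z₁⁵`, `Y = z₂⁵`. -/
def tXY (X Y : R) : R :=
  X ^ 6 + Y ^ 6 + 522 * (X ^ 5 * Y - X * Y ^ 5) - 10005 * (X ^ 4 * Y ^ 2 + X ^ 2 * Y ^ 4)

/-- Klein's form `H` of degree 20. -/
def kH (z₁ z₂ : R) : R := hXY (z₁ ^ 5) (z₂ ^ 5)

/-- Klein's form `T` of degree 30. -/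
def kT (z₁ z₂ : R) : R := tXY (z₁ ^ 5) (z₂ ^ 5)

/-- Klein's form `f` of degree 12. -/
def kf (z₁ z₂ : R) : R := z₁ * z₂ * (z₁ ^ 10 + 11 * z₁ ^ 5 * z₂ ^ 5 - z₂ ^ 10)

/-- `∂f/∂z₁`. -/
def kf1 (z₁ z₂ : R) : R := 11 * z₁ ^ 10 * z₂ + 66 * z₁ ^ 5 * z₂ ^ 6 - z₂ ^ 11

/-- `∂f/∂z₂`. -/
def kf2 (z₁ z₂ : R) : R := z₁ ^ 11 + 66 * z₁ ^ 6 * z₂ ^ 5 - 11 * z₁ * z₂ ^ 10

def bezA1 (X Y : R) : R :=
  -2022161 * Y ^ 5 + 1055557719 * X * Y ^ 4 + 20237108822 * X ^ 2 * Y ^ 3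
    + 103588896 * X ^ 3 * Y ^ 2 + 20237705983 * X ^ 4 * Y - 950431323 * X ^ 5

def bezB1 (X Y : R) : R :=
  -2022161 * Y ^ 3 - 461063031 * X * Y ^ 2 - 1001301767 * X ^ 2 * Y + 455818677 * X ^ 3

def bezA2 (X Y : R) : R :=
  -950431323 * Y ^ 5 - 20237705983 * X * Y ^ 4 + 103588896 * X ^ 2 * Y ^ 3
    - 20237108822 * X ^ 3 * Y ^ 2 + 1055557719 * X ^ 4 * Y + 2022161 * X ^ 5

def bezB2 (X Y : R) : R :=
  455818677 * Y ^ 3 + 1001301767 * X * Y ^ 2 - 461063031 * X ^ 2 * Y + 2022161 * X ^ 3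

theorem bezout1_XY (X Y : R) :
    bezA1 X Y * hXY X Y + bezB1 X Y * tXY X Y = 1406250000 * X ^ 9 := by
  unfold bezA1 bezB1 hXY tXY; ring

theorem bezout2_XY (X Y : R) :
    bezA2 X Y * hXY X Y + bezB2 X Y * tXY X Y = 1406250000 * Y ^ 9 := by
  unfold bezA2 bezB2 hXY tXY; ring

theorem syzygy_XY (X Y : R) :
    tXY X Y ^ 2 + hXY X Y ^ 3 = 1728 * (X * Y * (X ^ 2 + 11 * X * Y - Y ^ 2) ^ 5) := by
  unfold hXY tXY; ring

theorem kf_pow_five (z₁ z₂ : R) :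
    kf z₁ z₂ ^ 5 = z₁ ^ 5 * z₂ ^ 5 * ((z₁ ^ 5) ^ 2 + 11 * z₁ ^ 5 * z₂ ^ 5 - (z₂ ^ 5) ^ 2) ^ 5 := by
  unfold kf; ring

/-- The syzygy `T² + H³ = 1728 f⁵`. -/
theorem syzygy (z₁ z₂ : R) : kT z₁ z₂ ^ 2 + kH z₁ z₂ ^ 3 = 1728 * kf z₁ z₂ ^ 5 := by
  rw [kf_pow_five]; exact syzygy_XY _ _

/-- Euler's relation for the form `f` of degree 12. -/
theorem euler (z₁ z₂ : R) : z₁ * kf1 z₁ z₂ + z₂ * kf2 z₁ z₂ = 12 * kf z₁ z₂ := by
  unfold kf kf1 kf2; ring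

/-- `det (v, (f₂, -f₁)(v)) = -12 f(v)`. -/
theorem det_covariant (z₁ z₂ : R) :
    z₁ * (-kf1 z₁ z₂) - z₂ * kf2 z₁ z₂ = -(12 * kf z₁ z₂) := by
  rw [← euler]; ring

theorem kH_smul (c z₁ z₂ : R) : kH (c * z₁) (c * z₂) = c ^ 20 * kH z₁ z₂ := by
  unfold kH hXY; ring

theorem kT_smul (c z₁ z₂ : R) : kT (c * z₁) (c * z₂) = c ^ 30 * kT z₁ z₂ := by
  unfold kT tXY; ring

theorem kf_smul (c z₁ z₂ : R) : kf (c * z₁) (c * z₂) = c ^ 12 * kf z₁ z₂ := by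
  unfold kf; ring

variable {S : Type*} [CommRing S] (φ : R →+* S)

theorem map_hXY (X Y : R) : φ (hXY X Y) = hXY (φ X) (φ Y) := by simp [hXY, map_ofNat]
theorem map_tXY (X Y : R) : φ (tXY X Y) = tXY (φ X) (φ Y) := by simp [tXY, map_ofNat]
theorem map_kH (z₁ z₂ : R) : φ (kH z₁ z₂) = kH (φ z₁) (φ z₂) := by simp [kH, map_hXY]
theorem map_kT (z₁ z₂ : R) : φ (kT z₁ z₂) = kT (φ z₁) (φ z₂) := by simp [kT, map_tXY]
theorem map_kf (z₁ z₂ : R) : φ (kf z₁ z₂) = kf (φ z₁) (φ z₂) := by simp [kf, map_ofNat]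
theorem map_kf1 (z₁ z₂ : R) : φ (kf1 z₁ z₂) = kf1 (φ z₁) (φ z₂) := by simp [kf1, map_ofNat]
theorem map_kf2 (z₁ z₂ : R) : φ (kf2 z₁ z₂) = kf2 (φ z₁) (φ z₂) := by simp [kf2, map_ofNat]
theorem map_bezA1 (X Y : R) : φ (bezA1 X Y) = bezA1 (φ X) (φ Y) := by simp [bezA1, map_ofNat]
theorem map_bezB1 (X Y : R) : φ (bezB1 X Y) = bezB1 (φ X) (φ Y) := by simp [bezB1, map_ofNat]
theorem map_bezA2 (X Y : R) : φ (bezA2 X Y) = bezA2 (φ X) (φ Y) := by simp [bezA2, map_ofNat]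
theorem map_bezB2 (X Y : R) : φ (bezB2 X Y) = bezB2 (φ X) (φ Y) := by simp [bezB2, map_ofNat]

end Forms

section Valuation

variable {L : Type*} [Field L] (A : ValuationSubring L)

theorem val_mul_lt_one {x y : L} (hx : A.valuation x ≤ 1) (hy : A.valuation y < 1) :
    A.valuation (x * y) < 1 := by
  rw [map_mul]
  calc A.valuation x * A.valuation y ≤ 1 * A.valuation y := mul_le_mul' hx le_rfl
    _ = A.valuation y := one_mul _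
    _ < 1 := hy

theorem val_mul_lt_one' {x y : L} (hx : A.valuation x < 1) (hy : A.valuation y ≤ 1) :
    A.valuation (x * y) < 1 := by
  rw [mul_comm]; exact val_mul_lt_one A hy hx

theorem val_lt_one_of_pow {x : L} {n : ℕ} (h : A.valuation (x ^ n) < 1) : A.valuation x < 1 := by
  by_contra hx
  rw [not_lt] at hx
  rw [map_pow] at h
  exact absurd (one_le_pow₀ hx) (not_le.mpr h)

theorem val_pow_lt_one {x : L} {n : ℕ} (hn : n ≠ 0) (h : A.valuation x < 1) :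
    A.valuation (x ^ n) < 1 := by
  rw [map_pow]; exact pow_lt_one₀ zero_le h hn

theorem le_one_iff_mem {x : L} : A.valuation x ≤ 1 ↔ x ∈ A := A.valuation_le_one_iff x

/-- Integer polynomial expressions in elements of `A` lie in `A`. -/
theorem hXY_mem {X Y : L} (hX : X ∈ A) (hY : Y ∈ A) : hXY X Y ∈ A := by
  have h := (map_hXY A.subtype ⟨X, hX⟩ ⟨Y, hY⟩).symm
  exact h ▸ SetLike.coe_mem _

theorem tXY_mem {X Y : L} (hX : X ∈ A) (hY : Y ∈ A) : tXY X Y ∈ A := by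
  have h := (map_tXY A.subtype ⟨X, hX⟩ ⟨Y, hY⟩).symm
  exact h ▸ SetLike.coe_mem _

theorem bezA1_mem {X Y : L} (hX : X ∈ A) (hY : Y ∈ A) : bezA1 X Y ∈ A := by
  have h := (map_bezA1 A.subtype ⟨X, hX⟩ ⟨Y, hY⟩).symm
  exact h ▸ SetLike.coe_mem _

theorem bezB1_mem {X Y : L} (hX : X ∈ A) (hY : Y ∈ A) : bezB1 X Y ∈ A := by
  have h := (map_bezB1 A.subtype ⟨X, hX⟩ ⟨Y, hY⟩).symm
  exact h ▸ SetLike.coe_mem _

theorem bezA2_mem {X Y : L} (hX : X ∈ A) (hY : Y ∈ A) : bezA2 X Y ∈ A := by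
  have h := (map_bezA2 A.subtype ⟨X, hX⟩ ⟨Y, hY⟩).symm
  exact h ▸ SetLike.coe_mem _

theorem bezB2_mem {X Y : L} (hX : X ∈ A) (hY : Y ∈ A) : bezB2 X Y ∈ A := by
  have h := (map_bezB2 A.subtype ⟨X, hX⟩ ⟨Y, hY⟩).symm
  exact h ▸ SetLike.coe_mem _

theorem kf1_mem {z₁ z₂ : L} (h1 : z₁ ∈ A) (h2 : z₂ ∈ A) : kf1 z₁ z₂ ∈ A := by
  have h := (map_kf1 A.subtype ⟨z₁, h1⟩ ⟨z₂, h2⟩).symm
  exact h ▸ SetLike.coe_mem _

theorem kf2_mem {z₁ z₂ : L} (h1 : z₁ ∈ A) (h2 : z₂ ∈ A) : kf2 z₁ z₂ ∈ A := by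
  have h := (map_kf2 A.subtype ⟨z₁, h1⟩ ⟨z₂, h2⟩).symm
  exact h ▸ SetLike.coe_mem _

/-- If `X, Y ∈ A` and `hXY X Y`, `tXY X Y` are nonunits, then `c X⁹` and `c Y⁹` are nonunits. -/
theorem val_c_mul_lt {X Y : L} (hX : X ∈ A) (hY : Y ∈ A) (hh : A.valuation (hXY X Y) < 1)
    (ht : A.valuation (tXY X Y) < 1) :
    A.valuation (1406250000 * X ^ 9) < 1 ∧ A.valuation (1406250000 * Y ^ 9) < 1 := by
  constructor
  · rw [← bezout1_XY]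
    exact Valuation.map_add_lt _
      (val_mul_lt_one A ((le_one_iff_mem A).mpr (bezA1_mem A hX hY)) hh)
      (val_mul_lt_one A ((le_one_iff_mem A).mpr (bezB1_mem A hX hY)) ht)
  · rw [← bezout2_XY]
    exact Valuation.map_add_lt _
      (val_mul_lt_one A ((le_one_iff_mem A).mpr (bezA2_mem A hX hY)) hh)
      (val_mul_lt_one A ((le_one_iff_mem A).mpr (bezB2_mem A hX hY)) ht)

/-- **No common zero**: if `z₁, z₂ ∈ A` and `kH`, `kT` are nonunits at `(z₁, z₂)` then `z₁`, `z₂` are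
nonunits (`c = 2⁴ 3² 5¹⁰` a unit of `A`). -/
theorem nonunits_of_forms (hc : A.valuation (1406250000 : L) = 1) {z₁ z₂ : L}
    (h1 : z₁ ∈ A) (h2 : z₂ ∈ A) (hh : A.valuation (kH z₁ z₂) < 1)
    (ht : A.valuation (kT z₁ z₂) < 1) : A.valuation z₁ < 1 ∧ A.valuation z₂ < 1 := by
  obtain ⟨hx, hy⟩ := val_c_mul_lt A (pow_mem h1 5) (pow_mem h2 5) hh ht
  rw [map_mul, hc, one_mul] at hx hy
  exact ⟨val_lt_one_of_pow A (val_lt_one_of_pow A hx), val_lt_one_of_pow A (val_lt_one_of_pow A hy)⟩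

/-- One half of integrality: `z₂ ∉ A`, `z₁ / z₂ ∈ A` is impossible when `kH`, `kT` are integral. -/
theorem false_of_not_mem (hc : A.valuation (1406250000 : L) = 1) {z₁ z₂ : L}
    (hz2 : z₂ ∉ A) (hu : z₁ / z₂ ∈ A) (hH : kH z₁ z₂ ∈ A) (hT : kT z₁ z₂ ∈ A) : False := by
  have hz20 : z₂ ≠ 0 := fun h => hz2 (h ▸ A.zero_mem)
  have hinv : A.valuation z₂⁻¹ < 1 := by
    have h1 : 1 < A.valuation z₂ := not_le.mp fun h => hz2 ((le_one_iff_mem A).mp h)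
    rw [map_inv₀]; exact inv_lt_one_of_one_lt₀ h1
  have e0 : z₂⁻¹ * z₂ = 1 := inv_mul_cancel₀ hz20
  have eu : z₂⁻¹ * z₁ = z₁ / z₂ := by rw [div_eq_mul_inv, mul_comm]
  have e1 : kH (z₁ / z₂) 1 = z₂⁻¹ ^ 20 * kH z₁ z₂ := by
    rw [← kH_smul, e0, eu]
  have e2 : kT (z₁ / z₂) 1 = z₂⁻¹ ^ 30 * kT z₁ z₂ := by
    rw [← kT_smul, e0, eu]
  have hh : A.valuation (kH (z₁ / z₂) 1) < 1 := by
    rw [e1]
    exact val_mul_lt_one' A (val_pow_lt_one A (by norm_num) hinv) ((le_one_iff_mem A).mpr hH)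
  have ht : A.valuation (kT (z₁ / z₂) 1) < 1 := by
    rw [e2]
    exact val_mul_lt_one' A (val_pow_lt_one A (by norm_num) hinv) ((le_one_iff_mem A).mpr hT)
  have := (nonunits_of_forms A hc hu A.one_mem hh ht).2
  rw [map_one] at this
  exact lt_irrefl _ this

/-- The symmetric half. -/
theorem false_of_not_mem' (hc : A.valuation (1406250000 : L) = 1) {z₁ z₂ : L}
    (hz1 : z₁ ∉ A) (hu : z₂ / z₁ ∈ A) (hH : kH z₁ z₂ ∈ A) (hT : kT z₁ z₂ ∈ A) : False := by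
  have hz10 : z₁ ≠ 0 := fun h => hz1 (h ▸ A.zero_mem)
  have hinv : A.valuation z₁⁻¹ < 1 := by
    have h1 : 1 < A.valuation z₁ := not_le.mp fun h => hz1 ((le_one_iff_mem A).mp h)
    rw [map_inv₀]; exact inv_lt_one_of_one_lt₀ h1
  have e0 : z₁⁻¹ * z₁ = 1 := inv_mul_cancel₀ hz10
  have eu : z₁⁻¹ * z₂ = z₂ / z₁ := by rw [div_eq_mul_inv, mul_comm]
  have e1 : kH 1 (z₂ / z₁) = z₁⁻¹ ^ 20 * kH z₁ z₂ := by
    rw [← kH_smul, e0, eu]
  have e2 : kT 1 (z₂ / z₁) = z₁⁻¹ ^ 30 * kT z₁ z₂ := by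
    rw [← kT_smul, e0, eu]
  have hh : A.valuation (kH 1 (z₂ / z₁)) < 1 := by
    rw [e1]
    exact val_mul_lt_one' A (val_pow_lt_one A (by norm_num) hinv) ((le_one_iff_mem A).mpr hH)
  have ht : A.valuation (kT 1 (z₂ / z₁)) < 1 := by
    rw [e2]
    exact val_mul_lt_one' A (val_pow_lt_one A (by norm_num) hinv) ((le_one_iff_mem A).mpr hT)
  have := (nonunits_of_forms A hc A.one_mem hu hh ht).1
  rw [map_one] at this
  exact lt_irrefl _ this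

/-- **Integrality**: if `kH v`, `kT v ∈ A` then `v ∈ A²` (`c` a unit of `A`). -/
theorem mem_of_forms_mem (hc : A.valuation (1406250000 : L) = 1) {z₁ z₂ : L}
    (hH : kH z₁ z₂ ∈ A) (hT : kT z₁ z₂ ∈ A) : z₁ ∈ A ∧ z₂ ∈ A := by
  by_cases h2 : z₂ ∈ A
  · by_cases h1 : z₁ ∈ A
    · exact ⟨h1, h2⟩
    · exfalso
      have hinv : z₁⁻¹ ∈ A := (A.mem_or_inv_mem z₁).resolve_left h1
      exact false_of_not_mem' A hc h1 (by rw [div_eq_mul_inv]; exact A.mul_mem _ _ h2 hinv) hH hT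
  · exfalso
    rcases A.mem_or_inv_mem (z₁ / z₂) with hu | hu
    · exact false_of_not_mem A hc h2 hu hH hT
    · rw [inv_div] at hu
      have h1 : z₁ ∉ A := by
        intro h1
        have hz10 : z₁ ≠ 0 := by
          rintro rfl
          have hz20 : z₂ ≠ 0 := fun h => h2 (h ▸ A.zero_mem)
          exact false_of_not_mem A hc h2 (by simp [A.zero_mem]) hH hT
        have : z₂ = z₂ / z₁ * z₁ := by field_simp
        exact h2 (this ▸ A.mul_mem _ _ hu h1)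
      exact false_of_not_mem' A hc h1 hu hH hT

/-- **Primitivity**: if `det (v₀, v₁)` is a unit then `v₀ + t v₁` is primitive for `t ∈ A`. -/
theorem not_both_nonunits_add {z₁ z₂ w₁ w₂ t : L} (hw1 : w₁ ∈ A) (hw2 : w₂ ∈ A)
    (hdet : A.valuation (z₁ * w₂ - z₂ * w₁) = 1) :
    ¬ (A.valuation (z₁ + t * w₁) < 1 ∧ A.valuation (z₂ + t * w₂) < 1) := by
  rintro ⟨h1, h2⟩
  have e : z₁ * w₂ - z₂ * w₁ = (z₁ + t * w₁) * w₂ - (z₂ + t * w₂) * w₁ := by ring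
  have : A.valuation (z₁ * w₂ - z₂ * w₁) < 1 := by
    rw [e]
    exact Valuation.map_sub_lt _ (val_mul_lt_one' A h1 ((le_one_iff_mem A).mpr hw2))
      (val_mul_lt_one' A h2 ((le_one_iff_mem A).mpr hw1))
  rw [hdet] at this
  exact lt_irrefl _ this

end Valuation

end Fermat.Agent.S52K4.Klein
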