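/-
Programme K (S52), brick K4 (helper96), auxiliary: a polynomial over a field `K` of characteristic
zero which takes rational values at all integers has rational coefficients.
-/
import Mathlib

set_option autoImplicit false

namespace Fermat.Agent.S52K4.RatPoly

open Polynomial

variable {K : Type*} [Field K] [CharZero K]

/-- A polynomial `P ∈ K[X]` with `P(t) ∈ ℚ` for all `t ∈ ℤ` comes from `ℚ[X]`. -/
theorem exists_map_eq_of_forall_eval_int (P : K[X])
    (h : ∀ t : ℤ, ∃ c : ℚ, (c : K) = P.eval (t : K)) :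
    ∃ P₀ : ℚ[X], P₀.map (algebraMap ℚ K) = P := by
  classical
  -- a `ℚ`-linear retraction `π : K → ℚ` of the inclusion
  have hinj : Function.Injective (Algebra.linearMap ℚ K) := (algebraMap ℚ K).injective
  obtain ⟨π, hπ⟩ := (Algebra.linearMap ℚ K).exists_leftInverse_of_injective
    (LinearMap.ker_eq_bot.mpr hinj)
  have hπc : ∀ c : ℚ, π (c : K) = c := fun c => by
    have := LinearMap.congr_fun hπ c
    simpa using this
  -- the candidate
  let P₀ : ℚ[X] := ∑ j ∈ Finset.range (P.natDegree + 1), monomial j (π (P.coeff j))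
  have heval : ∀ t : ℤ, ((P₀.eval (t : ℚ) : ℚ) : K) = P.eval (t : K) := by
    intro t
    obtain ⟨c, hc⟩ := h t
    have h1 : P₀.eval (t : ℚ) = π (P.eval (t : K)) := by
      have hL : P₀.eval (t : ℚ) =
          ∑ j ∈ Finset.range (P.natDegree + 1), π (P.coeff j) * (t : ℚ) ^ j := by
        simp only [P₀, Polynomial.eval_finsetSum, Polynomial.eval_monomial]
      have hR : P.eval (t : K) = ∑ j ∈ Finset.range (P.natDegree + 1), P.coeff j * (t : K) ^ j :=
        Polynomial.eval_eq_sum_range _
      rw [hL, hR, map_sum]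
      refine Finset.sum_congr rfl fun j _ => ?_
      have : P.coeff j * (t : K) ^ j = ((t : ℚ) ^ j) • P.coeff j := by
        rw [Algebra.smul_def]; simp [mul_comm]
      rw [this, map_smul, smul_eq_mul, mul_comm]
    rw [h1, ← hc, hπc]
  refine ⟨P₀, ?_⟩
  have hroots : ∀ t : ℤ, (P₀.map (algebraMap ℚ K) - P).IsRoot (t : K) := by
    intro t
    have h2 : (P₀.map (algebraMap ℚ K)).eval (t : K) = ((P₀.eval (t : ℚ) : ℚ) : K) := by
      have e : ((t : ℤ) : K) = algebraMap ℚ K (t : ℚ) := by
        rw [eq_ratCast]; push_cast; rfl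
      rw [e, Polynomial.eval_map, Polynomial.eval₂_at_apply, eq_ratCast]
    rw [Polynomial.IsRoot, Polynomial.eval_sub, h2, heval, sub_self]
  have hinf : Set.Infinite {x : K | (P₀.map (algebraMap ℚ K) - P).IsRoot x} := by
    refine Set.infinite_of_injective_forall_mem (f := fun t : ℤ => (t : K)) ?_ hroots
    exact Int.cast_injective
  exact sub_eq_zero.mp (Polynomial.eq_zero_of_infinite_isRoot _ hinf)

end Fermat.Agent.S52K4.RatPoly
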