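/-
Programme K (S52), brick K4 (helper96): ASSEMBLY.

`K4`: let `W` be a semistable integral Weierstrass model with `Δ ≠ 0` and `v₀ = (z₁, z₂) ∈ ℚ̄²` a point
with `kH v₀ = -c₄(W)`, `kT v₀ = c₆(W)` (Klein forms, `Klein.lean`).  Put `v₁ = (f₂, -f₁)(v₀)` (the
covariant of degree 11) and `v_t = v₀ + t v₁`.  Assume that `-kH v_t` and `kT v_t` are rational for all
`t ∈ ℤ` (brick K3).  Then there is `N > 0` such that for all `t ∈ N ℤ` there is a semistable integral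
model `W'` with `Δ(W') ≠ 0`, `c₄(W') = -kH v_t`, `c₆(W') = kT v_t`
(`exists_model_of_klein`).

* `not_both_dvd`   : the local statement at a prime `q ∉ {2,3,5}` not dividing `Δ`, over any field;
* `hloc_of_klein`  : the hypothesis `hloc` of `Model.exists_semistable_model`;
* `exists_model_of_klein` : the assembly.
-/
import Mathlib
import Fermat.Agent.S05.Inertia
import Fermat.Agent.Lib.FrobeniusExists
import Fermat.Agent.S52K4.Model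
import Fermat.Agent.S52K4.Klein
import Fermat.Agent.S52K4.RatPoly

set_option autoImplicit false

namespace Fermat.Agent.S52K4.Main

open Fermat.Agent.S52K4.Klein Fermat.Agent.S52K4.Model
open Fermat.Agent.S05.Inertia

section Local

variable {L : Type*} [Field L] (A : ValuationSubring L)

/-- A prime `q ∉ {2, 3, 5}` does not divide `c = 2⁴ 3² 5¹⁰`. -/
theorem not_dvd_c {q : ℕ} (hq : q.Prime) (hq2 : q ≠ 2) (hq3 : q ≠ 3) (hq5 : q ≠ 5) :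
    ¬ (q : ℤ) ∣ 1406250000 := by
  intro h
  have h' : q ∣ 1406250000 := by exact_mod_cast h
  have e : (1406250000 : ℕ) = 2 ^ 4 * 3 ^ 2 * 5 ^ 10 := by norm_num
  rw [e] at h'
  rcases (Nat.Prime.dvd_mul hq).mp h' with h1 | h1
  · rcases (Nat.Prime.dvd_mul hq).mp h1 with h2 | h2
    · exact hq2 ((Nat.prime_dvd_prime_iff_eq hq Nat.prime_two).mp (hq.dvd_of_dvd_pow h2))
    · exact hq3 ((Nat.prime_dvd_prime_iff_eq hq Nat.prime_three).mp (hq.dvd_of_dvd_pow h2))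
  · exact hq5 ((Nat.prime_dvd_prime_iff_eq hq Nat.prime_five).mp (hq.dvd_of_dvd_pow h1))

theorem not_dvd_twelve {q : ℕ} (hq : q.Prime) (hq2 : q ≠ 2) (hq3 : q ≠ 3) : ¬ (q : ℤ) ∣ 12 := by
  intro h
  have h' : q ∣ 12 := by exact_mod_cast h
  have e : (12 : ℕ) = 2 ^ 2 * 3 := by norm_num
  rw [e] at h'
  rcases (Nat.Prime.dvd_mul hq).mp h' with h1 | h1
  · exact hq2 ((Nat.prime_dvd_prime_iff_eq hq Nat.prime_two).mp (hq.dvd_of_dvd_pow h1))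
  · exact hq3 ((Nat.prime_dvd_prime_iff_eq hq Nat.prime_three).mp h1)

/-- **The local statement.**  `A` a valuation subring over a prime `q ∉ {2,3,5}`; `v₀ = (z₁, z₂)` with
`kH v₀, kT v₀ ∈ A` and `kf v₀` a unit of `A`.  Then for `t ∈ ℤ` the integers `x4 = -kH v_t`,
`x6 = kT v_t` (if they are integers) are not both divisible by `q`. -/
theorem not_both_dvd {q : ℕ} (hq : q.Prime) (hq2 : q ≠ 2) (hq3 : q ≠ 3) (hq5 : q ≠ 5)
    (hA : A.LiesOverPrime q) {z₁ z₂ : L} (hH : kH z₁ z₂ ∈ A) (hT : kT z₁ z₂ ∈ A)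
    (hf : A.valuation (kf z₁ z₂) = 1) {s : ℤ} (hs : s = 1 ∨ s = -1) (t x4 x6 : ℤ)
    (h4 : (x4 : L) = -kH (z₁ + t * kf2 z₁ z₂) (z₂ + t * -kf1 z₁ z₂))
    (h6 : (x6 : L) = s * kT (z₁ + t * kf2 z₁ z₂) (z₂ + t * -kf1 z₁ z₂)) :
    ¬ ((q : ℤ) ∣ x4 ∧ (q : ℤ) ∣ x6) := by
  rintro ⟨hd4, hd6⟩
  have hc : A.valuation (1406250000 : L) = 1 := by
    have := valuation_intCast_eq_one (L := L) hq hA (not_dvd_c hq hq2 hq3 hq5)
    simpa using this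
  have h12 : A.valuation (12 : L) = 1 := by
    have := valuation_intCast_eq_one (L := L) hq hA (not_dvd_twelve hq hq2 hq3)
    simpa using this
  obtain ⟨m1, m2⟩ := mem_of_forms_mem A hc hH hT
  have hw1 : kf2 z₁ z₂ ∈ A := kf2_mem A m1 m2
  have hw2 : -kf1 z₁ z₂ ∈ A := A.neg_mem _ (kf1_mem A m1 m2)
  have ht : (t : L) ∈ A := intCast_mem A t
  have n1 : z₁ + t * kf2 z₁ z₂ ∈ A := A.add_mem _ _ m1 (A.mul_mem _ _ ht hw1)
  have n2 : z₂ + t * -kf1 z₁ z₂ ∈ A := A.add_mem _ _ m2 (A.mul_mem _ _ ht hw2)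
  have v4 : A.valuation (kH (z₁ + t * kf2 z₁ z₂) (z₂ + t * -kf1 z₁ z₂)) < 1 := by
    have := (valuation_intCast_lt_one_iff (L := L) hq hA x4).mpr hd4
    rw [h4, Valuation.map_neg] at this
    exact this
  have v6 : A.valuation (kT (z₁ + t * kf2 z₁ z₂) (z₂ + t * -kf1 z₁ z₂)) < 1 := by
    have := (valuation_intCast_lt_one_iff (L := L) hq hA x6).mpr hd6
    rw [h6] at this
    rcases hs with rfl | rfl
    · simpa using this
    · simpa using this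
  have hboth := nonunits_of_forms A hc n1 n2 v4 v6
  refine not_both_nonunits_add A hw1 hw2 ?_ hboth
  rw [det_covariant, Valuation.map_neg, map_mul, h12, hf, one_mul]

end Local

local notation "Qb" => AlgebraicClosure ℚ

/-- `kf v₀ ^ 5 = -Δ(W)` when `kH v₀ = -c₄(W)`, `kT v₀ = c₆(W)`. -/
theorem kf_pow_five_eq (W : WeierstrassCurve ℤ) {K : Type*} [Field K] [CharZero K] {z₁ z₂ : K}
    {s : ℤ} (hs : s = 1 ∨ s = -1)
    (hH : kH z₁ z₂ = -(W.c₄ : K)) (hT : kT z₁ z₂ = s * (W.c₆ : K)) :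
    kf z₁ z₂ ^ 5 = -(W.Δ : K) := by
  have h := syzygy z₁ z₂
  rw [hH, hT] at h
  have hs2 : ((s : K)) ^ 2 = 1 := by rcases hs with rfl | rfl <;> norm_num
  have hrel : (1728 : K) * (W.Δ : K) = (W.c₄ : K) ^ 3 - (W.c₆ : K) ^ 2 := by
    exact_mod_cast congrArg (Int.cast : ℤ → K) W.c_relation
  have h1728 : (1728 : K) ≠ 0 := by norm_num
  apply mul_left_cancel₀ h1728
  rw [← h, mul_neg, hrel, mul_pow, hs2]
  ring

/-- The local hypothesis `hloc` of `Model.exists_semistable_model` from Klein data over `ℚ̄`. -/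
theorem hloc_of_klein (W : WeierstrassCurve ℤ) {z₁ z₂ : Qb} {s : ℤ} (hs : s = 1 ∨ s = -1)
    (hH : kH z₁ z₂ = -(W.c₄ : Qb)) (hT : kT z₁ z₂ = s * (W.c₆ : Qb)) (C4 C6 : ℤ → ℚ)
    (hC4 : ∀ t : ℤ, ((C4 t : ℚ) : Qb) = -kH (z₁ + t * kf2 z₁ z₂) (z₂ + t * -kf1 z₁ z₂))
    (hC6 : ∀ t : ℤ, ((C6 t : ℚ) : Qb) = s * kT (z₁ + t * kf2 z₁ z₂) (z₂ + t * -kf1 z₁ z₂)) :
    ∀ ℓ : ℕ, ℓ.Prime → ¬ (ℓ : ℤ) ∣ 30 * W.Δ → ∀ t x4 x6 : ℤ,
      (x4 : ℚ) = C4 t → (x6 : ℚ) = C6 t → ¬ ((ℓ : ℤ) ∣ x4 ∧ (ℓ : ℤ) ∣ x6) := by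
  intro ℓ hℓ hbad t x4 x6 h4 h6
  obtain ⟨A, hA⟩ := Fermat.Agent.Lib.FrobeniusExists.exists_valuationSubring_liesOverPrime ℓ hℓ
  have hℓ30 : ¬ (ℓ : ℤ) ∣ 30 := fun h => hbad (Dvd.dvd.mul_right h _)
  have hℓΔ : ¬ (ℓ : ℤ) ∣ W.Δ := fun h => hbad (Dvd.dvd.mul_left h _)
  have hℓ2 : ℓ ≠ 2 := by rintro rfl; exact hℓ30 (by norm_num)
  have hℓ3 : ℓ ≠ 3 := by rintro rfl; exact hℓ30 (by norm_num)
  have hℓ5 : ℓ ≠ 5 := by rintro rfl; exact hℓ30 (by norm_num)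
  have mH : kH z₁ z₂ ∈ A := by rw [hH]; exact A.neg_mem _ (intCast_mem A _)
  have mT : kT z₁ z₂ ∈ A := by rw [hT]; exact A.mul_mem _ _ (intCast_mem A _) (intCast_mem A _)
  have hf : A.valuation (kf z₁ z₂) = 1 := by
    have h5 := kf_pow_five_eq W hs hH hT
    have hΔ1 : A.valuation ((W.Δ : ℤ) : Qb) = 1 := valuation_intCast_eq_one hℓ hA hℓΔ
    have h1 : A.valuation (kf z₁ z₂) ^ 5 = 1 := by
      rw [← map_pow, h5, Valuation.map_neg, hΔ1]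
    rcases lt_trichotomy (A.valuation (kf z₁ z₂)) 1 with h | h | h
    · exact absurd h1 (ne_of_lt (pow_lt_one₀ zero_le h (by norm_num)))
    · exact h
    · exact absurd h1 (ne_of_gt (one_lt_pow₀ h (by norm_num)))
  refine not_both_dvd A hℓ hℓ2 hℓ3 hℓ5 hA mH mT hf hs t x4 x6 ?_ ?_
  · rw [← hC4 t, ← h4]; norm_cast
  · rw [← hC6 t, ← h6]; norm_cast

open Polynomial in
/-- **K4.**  See the file header. -/
theorem exists_model_of_klein (W : WeierstrassCurve ℤ) (hΔ : W.Δ ≠ 0) (hW : W.IsSemistableModel)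
    {z₁ z₂ : Qb} {s : ℤ} (hs : s = 1 ∨ s = -1)
    (hH : kH z₁ z₂ = -(W.c₄ : Qb)) (hT : kT z₁ z₂ = s * (W.c₆ : Qb))
    (hrat4 : ∀ t : ℤ, ∃ c : ℚ, (c : Qb) = -kH (z₁ + t * kf2 z₁ z₂) (z₂ + t * -kf1 z₁ z₂))
    (hrat6 : ∀ t : ℤ, ∃ c : ℚ, (c : Qb) = kT (z₁ + t * kf2 z₁ z₂) (z₂ + t * -kf1 z₁ z₂)) :
    ∃ N : ℤ, 0 < N ∧ ∀ t : ℤ, N ∣ t → ∃ W' : WeierstrassCurve ℤ,
      W'.Δ ≠ 0 ∧ W'.IsSemistableModel ∧
      ((W'.c₄ : ℤ) : Qb) = -kH (z₁ + t * kf2 z₁ z₂) (z₂ + t * -kf1 z₁ z₂) ∧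
      ((W'.c₆ : ℤ) : Qb) = s * kT (z₁ + t * kf2 z₁ z₂) (z₂ + t * -kf1 z₁ z₂) ∧
      W'.a₁ = W.a₁ ∧ W'.a₂ = W.a₂ ∧ W'.a₃ = W.a₃ ∧
      (30 * W.Δ ^ 2 ∣ W'.a₄ - W.a₄) ∧ (30 * W.Δ ^ 2 ∣ W'.a₆ - W.a₆) := by
  have hs2 : ((s : Qb)) * s = 1 := by rcases hs with rfl | rfl <;> norm_num
  -- the two polynomials in `t` over `ℚ̄`
  let P4 : Qb[X] := -kH (C z₁ + X * C (kf2 z₁ z₂)) (C z₂ + X * C (-kf1 z₁ z₂))
  let P6 : Qb[X] := C (s : Qb) * kT (C z₁ + X * C (kf2 z₁ z₂)) (C z₂ + X * C (-kf1 z₁ z₂))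
  have e4 : ∀ x : Qb, P4.eval x = -kH (z₁ + x * kf2 z₁ z₂) (z₂ + x * -kf1 z₁ z₂) := by
    intro x
    have := map_kH (Polynomial.evalRingHom x) (C z₁ + X * C (kf2 z₁ z₂))
      (C z₂ + X * C (-kf1 z₁ z₂))
    simp only [Polynomial.coe_evalRingHom, Polynomial.eval_add, Polynomial.eval_mul,
      Polynomial.eval_C, Polynomial.eval_X] at this
    simp only [P4, Polynomial.eval_neg, this]
  have e6 : ∀ x : Qb, P6.eval x = s * kT (z₁ + x * kf2 z₁ z₂) (z₂ + x * -kf1 z₁ z₂) := by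
    intro x
    have := map_kT (Polynomial.evalRingHom x) (C z₁ + X * C (kf2 z₁ z₂))
      (C z₂ + X * C (-kf1 z₁ z₂))
    simp only [Polynomial.coe_evalRingHom, Polynomial.eval_add, Polynomial.eval_mul,
      Polynomial.eval_C, Polynomial.eval_X] at this
    simp only [P6, Polynomial.eval_mul, Polynomial.eval_C, this]
  obtain ⟨Q4, hQ4⟩ := RatPoly.exists_map_eq_of_forall_eval_int P4 (fun t => by
    obtain ⟨c, hc⟩ := hrat4 t; exact ⟨c, by rw [hc, e4]⟩)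
  obtain ⟨Q6, hQ6⟩ := RatPoly.exists_map_eq_of_forall_eval_int P6 (fun t => by
    obtain ⟨c, hc⟩ := hrat6 t; exact ⟨(s : ℚ) * c, by rw [e6, ← hc]; push_cast; ring⟩)
  have cast_eval : ∀ (Q : ℚ[X]) (t : ℤ),
      ((Q.eval (t : ℚ) : ℚ) : Qb) = (Q.map (algebraMap ℚ Qb)).eval (t : Qb) := by
    intro Q t
    have e : ((t : ℤ) : Qb) = algebraMap ℚ Qb (t : ℚ) := by
      rw [eq_ratCast]; push_cast; rfl
    rw [e, Polynomial.eval_map, Polynomial.eval₂_at_apply, eq_ratCast]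
  have hC4 : ∀ t : ℤ, ((Q4.eval (t : ℚ) : ℚ) : Qb)
      = -kH (z₁ + t * kf2 z₁ z₂) (z₂ + t * -kf1 z₁ z₂) := fun t => by
    rw [cast_eval, hQ4, e4]
  have hC6 : ∀ t : ℤ, ((Q6.eval (t : ℚ) : ℚ) : Qb)
      = s * kT (z₁ + t * kf2 z₁ z₂) (z₂ + t * -kf1 z₁ z₂) := fun t => by
    rw [cast_eval, hQ6, e6]
  have h40 : Q4.eval ((0 : ℤ) : ℚ) = W.c₄ := by
    have := hC4 0
    simp only [Int.cast_zero, zero_mul, add_zero] at this
    rw [hH, neg_neg] at this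
    have inj : Function.Injective ((↑) : ℚ → Qb) := Rat.cast_injective
    apply inj
    rw [Int.cast_zero, this]; norm_cast
  have h60 : Q6.eval ((0 : ℤ) : ℚ) = W.c₆ := by
    have := hC6 0
    simp only [Int.cast_zero, zero_mul, add_zero] at this
    rw [hT, ← mul_assoc, hs2, one_mul] at this
    have inj : Function.Injective ((↑) : ℚ → Qb) := Rat.cast_injective
    apply inj
    rw [Int.cast_zero, this]; norm_cast
  obtain ⟨N, hN, hmain⟩ := exists_semistable_model W hΔ hW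
    (fun t : ℤ => Q4.eval (t : ℚ)) (fun t : ℤ => Q6.eval (t : ℚ)) h40 h60
    (adicCont_eval Q4) (adicCont_eval Q6)
    (hloc_of_klein W hs hH hT _ _ hC4 hC6)
  refine ⟨N, hN, fun t ht => ?_⟩
  obtain ⟨W', h1, h2, h3, h4, h5⟩ := hmain t ht
  refine ⟨W', h1, h2, ?_, ?_, h5⟩
  · rw [← hC4 t, ← h3]; norm_cast
  · rw [← hC6 t, ← h4]; norm_cast

end Fermat.Agent.S52K4.Main
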