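/-
Programme K (S52), brick K4 (helper96): the PENCIL as rational polynomials, packaged for the
top-level `FamilyData` (helper13) and for K5 (helper64).

`exists_pencil`: with `v₀ = (z₁, z₂)`, `kH v₀ = -c₄(W)`, `kT v₀ = s c₆(W)` (`s = ±1`),
`v₁ = (kf2 v₀, -kf1 v₀)`, and rationality of `-kH (v₀ + t v₁)`, `kT (v₀ + t v₁)` at all integers `t`,
there are `C4 C6 : ℚ[X]` with
* `aeval x C4 = -kH (v₀ + x v₁)`, `aeval x C6 = s kT (v₀ + x v₁)` for ALL `x : ℚ̄`;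
* `C4.eval 0 = c₄(W)`, `C6.eval 0 = c₆(W)`;
* `t ↦ C4.eval t`, `t ↦ C6.eval t` are adically continuous (`Model.AdicCont`);
* the local hypothesis `hloc` of `Model.exists_semistable_model` holds for them.

`kf_eq_ff, kH_eq_Hf, kT_eq_Tf`: the forms of `S52K4.Klein` are those of `S52K2.Forms`.
-/
import Mathlib
import Fermat.Agent.S52K4.Main
import Fermat.Agent.S52K2.Forms

set_option autoImplicit false

namespace Fermat.Agent.S52K4.Pencil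

open Fermat.Agent.S52K4.Klein Fermat.Agent.S52K4.Model Fermat.Agent.S52K4.Main
open Fermat.Agent.S05.Inertia

section Bridge

variable {k : Type*} [Field k]

theorem kf_eq_ff (z₁ z₂ : k) : kf z₁ z₂ = Fermat.Agent.S52K2.Forms.ff z₁ z₂ := by
  unfold kf Fermat.Agent.S52K2.Forms.ff; ring

theorem kH_eq_Hf (z₁ z₂ : k) : kH z₁ z₂ = Fermat.Agent.S52K2.Forms.Hf z₁ z₂ := by
  unfold kH hXY Fermat.Agent.S52K2.Forms.Hf; ring

theorem kT_eq_Tf (z₁ z₂ : k) : kT z₁ z₂ = Fermat.Agent.S52K2.Forms.Tf z₁ z₂ := by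
  unfold kT tXY Fermat.Agent.S52K2.Forms.Tf; ring

end Bridge

local notation "Qb" => AlgebraicClosure ℚ

open Polynomial in
/-- **The pencil as rational polynomials.**  See the file header. -/
theorem exists_pencil (W : WeierstrassCurve ℤ)
    {z₁ z₂ : Qb} {s : ℤ} (hs : s = 1 ∨ s = -1)
    (hH : kH z₁ z₂ = -(W.c₄ : Qb)) (hT : kT z₁ z₂ = s * (W.c₆ : Qb))
    (hrat4 : ∀ t : ℤ, ∃ c : ℚ, (c : Qb) = -kH (z₁ + t * kf2 z₁ z₂) (z₂ + t * -kf1 z₁ z₂))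
    (hrat6 : ∀ t : ℤ, ∃ c : ℚ, (c : Qb) = kT (z₁ + t * kf2 z₁ z₂) (z₂ + t * -kf1 z₁ z₂)) :
    ∃ C4 C6 : ℚ[X],
      (∀ x : Qb, aeval x C4 = -kH (z₁ + x * kf2 z₁ z₂) (z₂ + x * -kf1 z₁ z₂)) ∧
      (∀ x : Qb, aeval x C6 = s * kT (z₁ + x * kf2 z₁ z₂) (z₂ + x * -kf1 z₁ z₂)) ∧
      C4.eval 0 = W.c₄ ∧ C6.eval 0 = W.c₆ ∧
      AdicCont (fun t : ℤ => C4.eval (t : ℚ)) ∧ AdicCont (fun t : ℤ => C6.eval (t : ℚ)) ∧
      (∀ ℓ : ℕ, ℓ.Prime → ¬ (ℓ : ℤ) ∣ 30 * W.Δ → ∀ t x4 x6 : ℤ,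
        (x4 : ℚ) = C4.eval (t : ℚ) → (x6 : ℚ) = C6.eval (t : ℚ) →
        ¬ ((ℓ : ℤ) ∣ x4 ∧ (ℓ : ℤ) ∣ x6)) := by
  have hs2 : ((s : Qb)) * s = 1 := by rcases hs with rfl | rfl <;> norm_num
  let P4 : Qb[X] := -kH (C z₁ + X * C (kf2 z₁ z₂)) (C z₂ + X * C (-kf1 z₁ z₂))
  let P6 : Qb[X] := C (s : Qb) * kT (C z₁ + X * C (kf2 z₁ z₂)) (C z₂ + X * C (-kf1 z₁ z₂))
  have e4 : ∀ x : Qb, P4.eval x = -kH (z₁ + x * kf2 z₁ z₂) (z₂ + x * -kf1 z₁ z₂) := by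
    intro x
    have := map_kH (Polynomial.evalRingHom x) (C z₁ + X * C (kf2 z₁ z₂))
      (C z₂ + X * C (-kf1 z₁ z₂))
    simp only [Polynomial.coe_evalRingHom, Polynomial.eval_add, Polynomial.eval_mul,
      Polynomial.eval_C, Polynomial.eval_X] at this
    simp only [P4, Polynomial.eval_neg, this]
  have e6 : ∀ x : Qb, P6.eval x = s * kT (z₁ + x * kf2 z₁ z₂) (z₂ + x * -kf1 z₁ z₂) := by
    intro x
    have := map_kT (Polynomial.evalRingHom x) (C z₁ + X * C (kf2 z₁ z₂))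
      (C z₂ + X * C (-kf1 z₁ z₂))
    simp only [Polynomial.coe_evalRingHom, Polynomial.eval_add, Polynomial.eval_mul,
      Polynomial.eval_C, Polynomial.eval_X] at this
    simp only [P6, Polynomial.eval_mul, Polynomial.eval_C, this]
  obtain ⟨Q4, hQ4⟩ := RatPoly.exists_map_eq_of_forall_eval_int P4 (fun t => by
    obtain ⟨c, hc⟩ := hrat4 t; exact ⟨c, by rw [hc, e4]⟩)
  obtain ⟨Q6, hQ6⟩ := RatPoly.exists_map_eq_of_forall_eval_int P6 (fun t => by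
    obtain ⟨c, hc⟩ := hrat6 t; exact ⟨(s : ℚ) * c, by rw [e6, ← hc]; push_cast; ring⟩)
  have a4 : ∀ x : Qb, aeval x Q4 = -kH (z₁ + x * kf2 z₁ z₂) (z₂ + x * -kf1 z₁ z₂) := by
    intro x
    rw [Polynomial.aeval_def, ← Polynomial.eval_map, hQ4, e4]
  have a6 : ∀ x : Qb, aeval x Q6 = s * kT (z₁ + x * kf2 z₁ z₂) (z₂ + x * -kf1 z₁ z₂) := by
    intro x
    rw [Polynomial.aeval_def, ← Polynomial.eval_map, hQ6, e6]
  have cast_eval : ∀ (Q : ℚ[X]) (t : ℤ),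
      ((Q.eval (t : ℚ) : ℚ) : Qb) = (Q.map (algebraMap ℚ Qb)).eval (t : Qb) := by
    intro Q t
    have e : ((t : ℤ) : Qb) = algebraMap ℚ Qb (t : ℚ) := by
      rw [eq_ratCast]; push_cast; rfl
    rw [e, Polynomial.eval_map, Polynomial.eval₂_at_apply, eq_ratCast]
  have hC4 : ∀ t : ℤ, ((Q4.eval (t : ℚ) : ℚ) : Qb)
      = -kH (z₁ + t * kf2 z₁ z₂) (z₂ + t * -kf1 z₁ z₂) := fun t => by
    rw [cast_eval, hQ4, e4]
  have hC6 : ∀ t : ℤ, ((Q6.eval (t : ℚ) : ℚ) : Qb)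
      = s * kT (z₁ + t * kf2 z₁ z₂) (z₂ + t * -kf1 z₁ z₂) := fun t => by
    rw [cast_eval, hQ6, e6]
  have h40 : Q4.eval (0 : ℚ) = W.c₄ := by
    have := hC4 0
    simp only [Int.cast_zero, zero_mul, add_zero] at this
    rw [hH, neg_neg] at this
    have inj : Function.Injective ((↑) : ℚ → Qb) := Rat.cast_injective
    apply inj
    rw [this]; norm_cast
  have h60 : Q6.eval (0 : ℚ) = W.c₆ := by
    have := hC6 0
    simp only [Int.cast_zero, zero_mul, add_zero] at this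
    rw [hT, ← mul_assoc, hs2, one_mul] at this
    have inj : Function.Injective ((↑) : ℚ → Qb) := Rat.cast_injective
    apply inj
    rw [this]; norm_cast
  exact ⟨Q4, Q6, a4, a6, h40, h60, adicCont_eval Q4, adicCont_eval Q6,
    hloc_of_klein W hs hH hT _ _ hC4 hC6⟩

end Fermat.Agent.S52K4.Pencil
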