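/-
Programme K (S52), brick K4a (helper96): the semistable integral model of the members `E_t` of a
one-parameter family of elliptic curves which is `adically close` to a given semistable integral
Weierstrass model `W` at `t = 0`.

Pure arithmetic, no dependency on the Klein forms:

* `shift W α β`      : the model of `W` with `a₄`, `a₆` replaced by `a₄ + α`, `a₆ + β`;
  `shift_c₄`, `shift_c₆`, `dvd_shift_Δ_sub` (`L ∣ α`, `L ∣ β` ⟹ `L ∣ Δ' - Δ`);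
* `AdicCont F`       : `F : ℤ → ℚ` is `adically continuous at 0 with bounded denominators`:
  `∃ D > 0, ∀ m t, D * m ∣ t → F t ∈ F 0 + m ℤ`; `adicCont_eval` : polynomial functions are;
* `exists_semistable_model` : the main statement (see its doc-string).
-/
import Mathlib
import Fermat.Prelude.Def_FLTPrelim_Modularity

set_option autoImplicit false

namespace Fermat.Agent.S52K4.Model

open WeierstrassCurve

/-- The integral model with `a₄`, `a₆` shifted by `α`, `β`. -/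
def shift (W : WeierstrassCurve ℤ) (α β : ℤ) : WeierstrassCurve ℤ :=
  ⟨W.a₁, W.a₂, W.a₃, W.a₄ + α, W.a₆ + β⟩

@[simp] theorem shift_a₁ (W : WeierstrassCurve ℤ) (α β : ℤ) : (shift W α β).a₁ = W.a₁ := rfl
@[simp] theorem shift_a₂ (W : WeierstrassCurve ℤ) (α β : ℤ) : (shift W α β).a₂ = W.a₂ := rfl
@[simp] theorem shift_a₃ (W : WeierstrassCurve ℤ) (α β : ℤ) : (shift W α β).a₃ = W.a₃ := rfl
@[simp] theorem shift_a₄ (W : WeierstrassCurve ℤ) (α β : ℤ) : (shift W α β).a₄ = W.a₄ + α := rfl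
@[simp] theorem shift_a₆ (W : WeierstrassCurve ℤ) (α β : ℤ) : (shift W α β).a₆ = W.a₆ + β := rfl

theorem shift_b₂ (W : WeierstrassCurve ℤ) (α β : ℤ) : (shift W α β).b₂ = W.b₂ := by
  simp [WeierstrassCurve.b₂]

theorem shift_c₄ (W : WeierstrassCurve ℤ) (α β : ℤ) : (shift W α β).c₄ = W.c₄ - 48 * α := by
  simp only [WeierstrassCurve.c₄, WeierstrassCurve.b₂, WeierstrassCurve.b₄, shift_a₁, shift_a₂,
    shift_a₃, shift_a₄]
  ring

theorem shift_c₆ (W : WeierstrassCurve ℤ) (α β : ℤ) :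
    (shift W α β).c₆ = W.c₆ + 72 * W.b₂ * α - 864 * β := by
  simp only [WeierstrassCurve.c₆, WeierstrassCurve.b₂, WeierstrassCurve.b₄, WeierstrassCurve.b₆,
    shift_a₁, shift_a₂, shift_a₃, shift_a₄, shift_a₆]
  ring

/-- If `L ∣ α` and `L ∣ β` the discriminants of `W` and of the shifted model agree modulo `L`. -/
theorem dvd_shift_Δ_sub (W : WeierstrassCurve ℤ) {L α β : ℤ} (hα : L ∣ α) (hβ : L ∣ β) :
    L ∣ (shift W α β).Δ - W.Δ := by
  obtain ⟨a, rfl⟩ := hα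
  obtain ⟨b, rfl⟩ := hβ
  simp only [WeierstrassCurve.Δ, WeierstrassCurve.b₂, WeierstrassCurve.b₄, WeierstrassCurve.b₆,
    WeierstrassCurve.b₈, shift_a₁, shift_a₂, shift_a₃, shift_a₄, shift_a₆]
  refine Dvd.intro ?_ ?_
  · exact (-(W.a₁ ^ 2 + 4 * W.a₂) ^ 2 *
        (W.a₁ ^ 2 * b + 4 * W.a₂ * b - W.a₁ * W.a₃ * a - 2 * W.a₄ * a - L * a ^ 2)
      - 8 * (2 * a * (3 * (2 * W.a₄ + W.a₁ * W.a₃) ^ 2 + 3 * (2 * W.a₄ + W.a₁ * W.a₃) * (2 * (L * a))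
          + (2 * (L * a)) ^ 2))
      - 27 * (4 * b * (2 * (W.a₃ ^ 2 + 4 * W.a₆) + 4 * (L * b)))
      + 9 * (W.a₁ ^ 2 + 4 * W.a₂) *
        (2 * a * (W.a₃ ^ 2 + 4 * W.a₆) + (2 * W.a₄ + W.a₁ * W.a₃) * (4 * b) + 2 * a * (4 * (L * b))))
  · ring

/-- `F : ℤ → ℚ` is adically continuous at `0` with bounded denominators. -/
def AdicCont (F : ℤ → ℚ) : Prop :=
  ∃ D : ℤ, 0 < D ∧ ∀ m t : ℤ, D * m ∣ t → ∃ k : ℤ, F t = F 0 + m * k

theorem adicCont_const (c : ℚ) : AdicCont (fun _ => c) :=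
  ⟨1, one_pos, fun m t _ => ⟨0, by simp⟩⟩

theorem AdicCont.add {F G : ℤ → ℚ} (hF : AdicCont F) (hG : AdicCont G) :
    AdicCont (fun t => F t + G t) := by
  obtain ⟨D, hD, h⟩ := hF
  obtain ⟨E, hE, h'⟩ := hG
  refine ⟨D * E, mul_pos hD hE, fun m t ht => ?_⟩
  obtain ⟨k, hk⟩ := h m t (Dvd.dvd.trans ⟨E, by ring⟩ ht)
  obtain ⟨l, hl⟩ := h' m t (Dvd.dvd.trans ⟨D, by ring⟩ ht)
  exact ⟨k + l, by simp only [hk, hl]; push_cast; ring⟩

/-- A monomial function `t ↦ c * t ^ n` is adically continuous. -/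
theorem adicCont_monomial (c : ℚ) (n : ℕ) : AdicCont (fun t : ℤ => c * (t : ℚ) ^ n) := by
  rcases Nat.eq_zero_or_pos n with rfl | hn
  · simpa using adicCont_const c
  · obtain ⟨p, q, hq, rfl⟩ : ∃ p q : ℤ, 0 < q ∧ c = (p : ℚ) / (q : ℚ) :=
      ⟨c.num, c.den, by exact_mod_cast c.den_pos, (Rat.num_div_den c).symm⟩
    refine ⟨q, hq, fun m t ht => ?_⟩
    obtain ⟨s, rfl⟩ := ht
    obtain ⟨j, rfl⟩ : ∃ j, n = j + 1 := ⟨n - 1, by omega⟩
    refine ⟨p * q ^ j * m ^ j * s ^ (j + 1), ?_⟩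
    have hd : (q : ℚ) ≠ 0 := by exact_mod_cast hq.ne'
    simp only [Int.cast_zero, Int.cast_mul, Int.cast_pow]
    rw [zero_pow (Nat.succ_ne_zero j), mul_zero, zero_add]
    field_simp
    ring

/-- Polynomial functions with rational coefficients are adically continuous. -/
theorem adicCont_eval (p : Polynomial ℚ) : AdicCont (fun t : ℤ => p.eval (t : ℚ)) := by
  induction p using Polynomial.induction_on' with
  | add p q hp hq => simpa [Polynomial.eval_add] using hp.add hq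
  | monomial n c => simpa [Polynomial.eval_monomial] using adicCont_monomial c n

/-- **K4a.**  Let `W` be a semistable integral Weierstrass model with `Δ ≠ 0` and let
`C4, C6 : ℤ → ℚ` be adically continuous functions with `C4 0 = c₄(W)`, `C6 0 = c₆(W)` such that for
every prime `ℓ ∤ 30 Δ(W)` and every `t`, the numbers `C4 t`, `C6 t` (whenever they are integers) are
not both divisible by `ℓ`.  Then there is `N > 0` such that for every `t ∈ N ℤ` there is a semistable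
integral model `W'` with `Δ(W') ≠ 0`, `c₄(W') = C4 t`, `c₆(W') = C6 t`; moreover `W'` has the same
`a₁, a₂, a₃` as `W` and `a₄, a₆` congruent to those of `W` modulo `30 Δ(W)²`. -/
theorem exists_semistable_model (W : WeierstrassCurve ℤ) (hΔ : W.Δ ≠ 0) (hW : W.IsSemistableModel)
    (C4 C6 : ℤ → ℚ) (h40 : C4 0 = W.c₄) (h60 : C6 0 = W.c₆)
    (hC4 : AdicCont C4) (hC6 : AdicCont C6)
    (hloc : ∀ ℓ : ℕ, ℓ.Prime → ¬ (ℓ : ℤ) ∣ 30 * W.Δ → ∀ t x4 x6 : ℤ,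
      (x4 : ℚ) = C4 t → (x6 : ℚ) = C6 t → ¬ ((ℓ : ℤ) ∣ x4 ∧ (ℓ : ℤ) ∣ x6)) :
    ∃ N : ℤ, 0 < N ∧ ∀ t : ℤ, N ∣ t → ∃ W' : WeierstrassCurve ℤ,
      W'.Δ ≠ 0 ∧ W'.IsSemistableModel ∧ (W'.c₄ : ℚ) = C4 t ∧ (W'.c₆ : ℚ) = C6 t ∧
      W'.a₁ = W.a₁ ∧ W'.a₂ = W.a₂ ∧ W'.a₃ = W.a₃ ∧
      (30 * W.Δ ^ 2 ∣ W'.a₄ - W.a₄) ∧ (30 * W.Δ ^ 2 ∣ W'.a₆ - W.a₆) := by
  obtain ⟨D4, hD4, h4⟩ := hC4
  obtain ⟨D6, hD6, h6⟩ := hC6
  set L : ℤ := 30 * W.Δ ^ 2 with hL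
  have hLpos : 0 < L := by positivity
  refine ⟨D4 * D6 * (1728 * L), by positivity, fun t ht => ?_⟩
  obtain ⟨k4, hk4⟩ := h4 (1728 * L * D6) t (Dvd.dvd.trans ⟨1, by ring⟩ ht)
  obtain ⟨k6, hk6⟩ := h6 (1728 * L * D4) t (Dvd.dvd.trans ⟨1, by ring⟩ ht)
  set α : ℤ := -(36 * L * D6 * k4) with hα
  set β : ℤ := -(3 * W.b₂ * L * D6 * k4) - 2 * L * D4 * k6 with hβ
  have hLα : L ∣ α := ⟨-(36 * D6 * k4), by rw [hα]; ring⟩
  have hLβ : L ∣ β := ⟨-(3 * W.b₂ * D6 * k4) - 2 * D4 * k6, by rw [hβ]; ring⟩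
  have hc4 : ((shift W α β).c₄ : ℚ) = C4 t := by
    rw [hk4, h40, shift_c₄, hα]; push_cast; ring
  have hc6 : ((shift W α β).c₆ : ℚ) = C6 t := by
    rw [hk6, h60, shift_c₆, hα, hβ]; push_cast; ring
  have hΔL : L ∣ (shift W α β).Δ - W.Δ := dvd_shift_Δ_sub W hLα hLβ
  have hc4L : L ∣ (shift W α β).c₄ - W.c₄ := by
    rw [shift_c₄]
    exact Dvd.dvd.trans hLα ⟨-48, by ring⟩
  refine ⟨shift W α β, ?_, ?_, hc4, hc6, rfl, rfl, rfl, ?_, ?_⟩
  · -- `Δ' ≠ 0`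
    intro h0
    rw [h0, zero_sub] at hΔL
    have h1 : L ∣ W.Δ := (dvd_neg).mp hΔL
    have h2 : |L| ≤ |W.Δ| := Int.le_of_dvd (abs_pos.mpr hΔ) ((dvd_abs _ _).mpr ((abs_dvd _ _).mpr h1))
    have h3 : 1 ≤ |W.Δ| := Int.one_le_abs hΔ
    rw [abs_of_pos hLpos, hL] at h2
    have h4' : W.Δ ^ 2 = |W.Δ| ^ 2 := (sq_abs _).symm
    nlinarith
  · -- semistability
    intro p hp hpΔ hpc
    by_cases hbad : (p : ℤ) ∣ 30 * W.Δ
    · have hpL : (p : ℤ) ∣ L := Dvd.dvd.trans hbad ⟨W.Δ, by rw [hL]; ring⟩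
      have h1 : (p : ℤ) ∣ W.Δ := by
        have := (Dvd.dvd.trans hpL hΔL)
        have h2 := dvd_sub hpΔ this
        simpa using h2
      have h2 : (p : ℤ) ∣ W.c₄ := by
        have := (Dvd.dvd.trans hpL hc4L)
        have h3 := dvd_sub hpc this
        simpa using h3
      exact hW p hp h1 h2
    · refine hloc p hp hbad t _ _ hc4 hc6 ⟨hpc, ?_⟩
      have hrel := (shift W α β).c_relation
      have hp' : Prime (p : ℤ) := Nat.prime_iff_prime_int.mp hp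
      have h1 : (p : ℤ) ∣ (shift W α β).c₆ ^ 2 := by
        have e : (shift W α β).c₆ ^ 2 = (shift W α β).c₄ ^ 3 - 1728 * (shift W α β).Δ := by
          rw [hrel]; ring
        rw [e]
        exact dvd_sub (Dvd.dvd.trans hpc ⟨(shift W α β).c₄ ^ 2, by ring⟩)
          (Dvd.dvd.trans hpΔ ⟨1728, by ring⟩)
      exact hp'.dvd_of_dvd_pow h1
  · simpa using hLα
  · simpa using hLβ

end Fermat.Agent.S52K4.Model
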